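/-
S24 package A4 (Newton), independent proof (helper98): every place over the center is induced by
one of the embeddings.

For `a ≠ 0` put `Λ_x a = (φ x a).order * v.ord π - s * v.ord a`.  Each `Λ_x` is additive.
(NP) for `a ∈ R`, `a ≠ 0`, some `Λ_x a` vanishes: otherwise in the monic relation
`∑ (-1)^k ε_k a^(μ-k) = 0` the term `k = #{y | Λ_y a < 0}` has strictly smallest `v.ord`.
(A) then one `x` works for all `a ∈ R` (product trick), hence for all `f = a / b`.
-/
import Fermat.Agent.S24.Ord
import Fermat.Agent.S24.Algebraic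

set_option autoImplicit false

open AlgebraicCurve

noncomputable section

namespace Fermat.Agent.S24.H98

/-- Finitely many additive integer-valued functionals on a multiplicatively closed set such that
every element is killed by one of them: one of them kills everything. -/
theorem exists_forall_eq_zero_of_forall_exists {M X : Type*} [Monoid M] [Finite X]
    (P : M → Prop) (hP : ∀ a b, P a → P b → P (a * b)) (h1 : ∃ a, P a)
    (Λ : X → M → ℤ) (hΛ : ∀ x a b, P a → P b → Λ x (a * b) = Λ x a + Λ x b)
    (h : ∀ a, P a → ∃ x, Λ x a = 0) : ∃ x, ∀ a, P a → Λ x a = 0 := by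
  classical
  by_contra hcon
  push Not at hcon
  choose a ha1 ha2 using hcon
  have key : ∀ T : Finset X, ∃ b, P b ∧ ∀ y ∈ T, Λ y b ≠ 0 := by
    intro T
    induction T using Finset.induction_on with
    | empty =>
      obtain ⟨a, ha⟩ := h1
      exact ⟨a, ha, by simp⟩
    | insert x T hx ih =>
      obtain ⟨b, hb, hbT⟩ := ih
      have hc : ∀ n : ℕ, P (b ^ n * a x) ∧
          ∀ y, Λ y (b ^ n * a x) = n * Λ y b + Λ y (a x) := by
        intro n
        induction n with
        | zero => simp [ha1 x]
        | succ n ih =>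
          refine ⟨?_, fun y => ?_⟩
          · rw [pow_succ', mul_assoc]
            exact hP _ _ hb ih.1
          · rw [pow_succ', mul_assoc, hΛ y _ _ hb ih.1, ih.2 y]
            push_cast
            ring
      set n : ℕ := ∑ y ∈ insert x T, (Λ y (a x)).natAbs + 1 with hn
      refine ⟨b ^ n * a x, (hc n).1, fun y hy => ?_⟩
      rw [(hc n).2 y]
      have hlt : (Λ y (a x)).natAbs < n := by
        have := Finset.single_le_sum (f := fun y => (Λ y (a x)).natAbs)
          (fun i _ => Nat.zero_le _) hy
        omega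
      by_cases hyb : Λ y b = 0
      · have hyx : y = x := by
          rcases Finset.mem_insert.mp hy with h | h
          · exact h
          · exact absurd hyb (hbT y h)
        rw [hyb, mul_zero, zero_add, hyx]
        exact ha2 x
      · intro h0
        have h2 : Λ y (a x) = -((n : ℤ) * Λ y b) := by linarith
        have h3 : (Λ y (a x)).natAbs = n * (Λ y b).natAbs := by
          rw [h2, Int.natAbs_neg, Int.natAbs_mul, Int.natAbs_natCast]
        have h4 : 1 ≤ (Λ y b).natAbs := Int.natAbs_pos.mpr hyb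
        have h5 : n ≤ n * (Λ y b).natAbs := Nat.le_mul_of_pos_right n h4
        omega
  cases nonempty_fintype X
  obtain ⟨b, hb, hbT⟩ := key Finset.univ
  obtain ⟨x, hx⟩ := h b hb
  exact hbT x (Finset.mem_univ x) hx

/-- Strict version of `lorder_sum_ge` after scaling by a positive integer. -/
theorem lt_mul_lorder_sum {ι : Type*} (s : Finset ι) (f : ι → LaurentSeries ℂ) (e c : ℤ)
    (he : 0 < e) (h : ∀ i ∈ s, f i ≠ 0 → c < e * (f i).order) (hs : ∑ i ∈ s, f i ≠ 0) :
    c < e * (∑ i ∈ s, f i).order := by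
  by_contra hle
  push Not at hle
  have := lorder_sum_ge s f ((∑ i ∈ s, f i).order + 1) (fun i hi hne => by
    have h1 := h i hi hne
    have h2 : e * (∑ i ∈ s, f i).order < e * (f i).order := lt_of_le_of_lt hle h1
    have h3 := lt_of_mul_lt_mul_left h2 he.le
    omega) hs
  omega

/-- A subset sum of nonzero integers is minimal exactly for the set of negative terms. -/
theorem sum_filter_neg_lt {X : Type*} [Fintype X] [DecidableEq X] (lam : X → ℤ)
    (hlam : ∀ y, lam y ≠ 0) (T : Finset X) (hT : T ≠ Finset.univ.filter fun y => lam y < 0) :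
    ∑ y ∈ Finset.univ.filter (fun y => lam y < 0), lam y < ∑ y ∈ T, lam y := by
  have e1 : ∑ y ∈ T, lam y = ∑ y, if y ∈ T then lam y else 0 := by
    rw [Finset.sum_ite_mem, Finset.univ_inter]
  have e2 : ∑ y ∈ Finset.univ.filter (fun y => lam y < 0), lam y =
      ∑ y, if lam y < 0 then lam y else 0 := by
    rw [Finset.sum_filter]
  rw [e1, e2]
  apply Finset.sum_lt_sum
  · intro y _
    have := hlam y
    split_ifs <;> omega
  · have : ∃ y, ¬ (y ∈ T ↔ lam y < 0) := by
      by_contra hall
      push Not at hall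
      apply hT
      ext y
      simp [hall y]
    obtain ⟨y, hy⟩ := this
    refine ⟨y, Finset.mem_univ y, ?_⟩
    have := hlam y
    split_ifs with h1 h2 <;> first | omega | (exfalso; tauto)

variable {K F X : Type*} [Field K] [Field F] [Algebra K F] [Fintype X]
  {R : Subalgebra K F} {π : F}

/-- (NP): for `a ∈ R`, `a ≠ 0`, some embedding computes `v.ord a` correctly. -/
theorem exists_order_mul_eq [Nonempty X] (L : LocalData K F X R π)
    (v : Place K F) (hv : 0 < v.ord π) {a : F} (ha : a ∈ R) (ha0 : a ≠ 0) :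
    ∃ x, (L.φ x a).order * v.ord π - L.s * v.ord a = 0 := by
  classical
  by_contra hcon
  push Not at hcon
  obtain ⟨ε, hε1, hε2, hε3⟩ := L.monic_relation ha
  obtain ⟨x₀⟩ := ‹Nonempty X›
  set e : ℤ := v.ord π with he
  set w : ℤ := v.ord a with hw
  have hs : (0 : ℤ) < L.s := by exact_mod_cast L.s_pos
  set lam : X → ℤ := fun y => (L.φ y a).order * e - L.s * w with hlam
  set S : Finset X := Finset.univ.filter fun y => lam y < 0 with hS
  set μ : ℕ := Fintype.card X with hμ
  have hφ0 : ∀ y, L.φ y a ≠ 0 := fun y => L.φ_ne_zero y ha0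
  -- order of the products
  have hprod0 : ∀ T : Finset X, ∏ y ∈ T, L.φ y a ≠ 0 := fun T =>
    Finset.prod_ne_zero_iff.mpr fun y _ => hφ0 y
  have hprod : ∀ T : Finset X, e * (∏ y ∈ T, L.φ y a).order = ∑ y ∈ T, lam y + T.card * (L.s * w) := by
    intro T
    rw [lorder_prod T _ (fun y _ => hφ0 y), Finset.mul_sum]
    simp only [hlam, Finset.sum_sub_distrib, Finset.sum_const, nsmul_eq_mul]
    rw [sub_add_cancel]
    exact Finset.sum_congr rfl fun y _ => mul_comm _ _
  have hesymm : ∀ k, L.φ x₀ (ε k) = ∑ T ∈ Finset.powersetCard k Finset.univ, ∏ y ∈ T, L.φ y a := by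
    intro k
    rw [hε2 k x₀, Finset.esymm_map_val]
  have hrel : ∀ k, (L.φ x₀ (ε k)).order * e = L.s * v.ord (ε k) := fun k =>
    L.rel_of_mem_adjoin v hv x₀ (hε1 k)
  have hk₀ : S.card ≤ μ := Finset.card_le_univ S
  -- the terms
  set term : ℕ → F := fun k => (-1) ^ k * ε k * a ^ (μ - k) with hterm
  have hterm_ord : ∀ k, k ≤ μ → ε k ≠ 0 →
      L.s * v.ord (term k) = e * (L.φ x₀ (ε k)).order + (μ - k) * (L.s * w) := by
    intro k hk hεk
    have h1 : ((-1 : F)) ^ k ≠ 0 := pow_ne_zero _ (neg_ne_zero.mpr one_ne_zero)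
    have h2 : a ^ (μ - k) ≠ 0 := pow_ne_zero _ ha0
    have h3 : v.ord ((-1 : F) ^ k) = 0 := by
      rw [ord_pow, ord_neg, v.ord_one, mul_zero]
    simp only [hterm]
    rw [v.ord_mul (mul_ne_zero h1 hεk) h2, v.ord_mul h1 hεk, h3, ord_pow, zero_add, mul_add,
      ← hrel k, Nat.cast_sub hk]
    ring
  -- the distinguished term
  have hmain := lorder_sum_of_unique_min (Finset.powersetCard S.card Finset.univ)
    (fun T => ∏ y ∈ T, L.φ y a) (i₀ := S)
    (Finset.mem_powersetCard.mpr ⟨Finset.subset_univ _, rfl⟩) (hprod0 S) (by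
      intro T hT hTS
      right
      have hcard : T.card = S.card := (Finset.mem_powersetCard.mp hT).2
      have h1 := sum_filter_neg_lt lam hcon T hTS
      have h2 := hprod T
      have h3 := hprod S
      rw [hcard] at h2
      have h4 : e * (∏ y ∈ S, L.φ y a).order < e * (∏ y ∈ T, L.φ y a).order := by
        rw [h2, h3]; linarith
      exact lt_of_mul_lt_mul_left h4 hv.le)
  rw [← hesymm] at hmain
  have hε₀ : ε S.card ≠ 0 := by
    intro h0
    apply hmain.1
    rw [h0, map_zero]
  have hterm₀ : term S.card ≠ 0 := by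
    simp only [hterm]
    exact mul_ne_zero (mul_ne_zero (pow_ne_zero _ (neg_ne_zero.mpr one_ne_zero)) hε₀)
      (pow_ne_zero _ ha0)
  have hord₀ : L.s * v.ord (term S.card) = ∑ y ∈ S, lam y + μ * (L.s * w) := by
    rw [hterm_ord S.card hk₀ hε₀, hmain.2, hprod S]
    ring
  have hsum := ord_sum_of_unique_min v (Finset.range (μ + 1)) term (i₀ := S.card)
    (Finset.mem_range.mpr (Nat.lt_succ_of_le hk₀)) hterm₀ (by
      intro k hk hkS
      have hkμ : k ≤ μ := Nat.lt_succ_iff.mp (Finset.mem_range.mp hk)
      by_cases hεk : ε k = 0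
      · left
        simp only [hterm, hεk, mul_zero, zero_mul]
      right
      have hne : ∑ T ∈ Finset.powersetCard k Finset.univ, ∏ y ∈ T, L.φ y a ≠ 0 := by
        rw [← hesymm]
        exact L.φ_ne_zero x₀ hεk
      have h1 := lt_mul_lorder_sum (Finset.powersetCard k Finset.univ)
        (fun T => ∏ y ∈ T, L.φ y a) e (∑ y ∈ S, lam y + k * (L.s * w)) hv (by
          intro T hT _
          have hcard : T.card = k := (Finset.mem_powersetCard.mp hT).2
          have hTS : T ≠ S := by
            rintro rfl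
            exact hkS hcard.symm
          have h1 := sum_filter_neg_lt lam hcon T hTS
          rw [hprod T, hcard]
          linarith) hne
      rw [← hesymm] at h1
      have h2 := hterm_ord k hkμ hεk
      have h3 : L.s * v.ord (term S.card) < L.s * v.ord (term k) := by
        rw [h2, hord₀]
        linarith
      exact lt_of_mul_lt_mul_left h3 hs.le)
  exact hsum.1 hε3

/-- **A4 (Newton)**: every place over the center is induced by one of the embeddings. -/
theorem exists_rel_of_place [Nonempty X] (L : LocalData K F X R π)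
    (hR : ∀ f : F, ∃ a ∈ R, ∃ b ∈ R, b ≠ 0 ∧ f = a / b)
    (v : Place K F) (hv : 0 < v.ord π) : ∃ x, L.Rel v x := by
  obtain ⟨x, hx⟩ := exists_forall_eq_zero_of_forall_exists (M := F) (X := X)
    (fun a => a ∈ R ∧ a ≠ 0) (fun a b ha hb => ⟨R.mul_mem ha.1 hb.1, mul_ne_zero ha.2 hb.2⟩)
    ⟨1, R.one_mem, one_ne_zero⟩
    (fun x a => (L.φ x a).order * v.ord π - L.s * v.ord a)
    (fun x a b ha hb => by
      show (L.φ x (a * b)).order * v.ord π - L.s * v.ord (a * b) = _
      rw [map_mul, lorder_mul (L.φ_ne_zero x ha.2) (L.φ_ne_zero x hb.2), v.ord_mul ha.2 hb.2]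
      ring)
    (fun a ha => exists_order_mul_eq L v hv ha.1 ha.2)
  refine ⟨x, fun f => ?_⟩
  by_cases hf : f = 0
  · subst hf
    simp
  obtain ⟨a, ha, b, hb, hb0, rfl⟩ := hR f
  have ha0 : a ≠ 0 := by
    rintro rfl
    simp at hf
  have h1 := hx a ⟨ha, ha0⟩
  have h2 := hx b ⟨hb, hb0⟩
  rw [map_div₀, ord_div v ha0 hb0,
    (H52.isAddVal_lorder).map_div (L.φ_ne_zero x ha0) (L.φ_ne_zero x hb0)]
  linarith

end Fermat.Agent.S24.H98
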